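import Mathlib.AlgebraicGeometry.Gluing
import Mathlib.AlgebraicGeometry.Cover.Open
import Mathlib.Algebra.Group.MinimalAxioms
import Fermat.Prelude.Def_AlgebraicGeometry_RelativeGroupLaw

/-!
A natural group structure on the affine points of a scheme over a ring extends to a relative group
law: natural operations glue over affine covers.
-/

set_option autoImplicit false

noncomputable section

open CategoryTheory CategoryTheory.Limits AlgebraicGeometry NeronModelInfra GoodReductionJacobian

namespace Fermat.Agent.RelJac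

universe u v

variable {k : Type u} [CommRing k] {P : Scheme.{u}} (f : P ⟶ Spec (CommRingCat.of k))

/-- The structure map of an affine test scheme. -/
abbrev affTest (R : Type u) [CommRing R] [Algebra k R] :
    Spec (CommRingCat.of R) ⟶ Spec (CommRingCat.of k) :=
  Spec.map (CommRingCat.ofHom (algebraMap k R))

/-- The points of `P` with values in a `k`-algebra. -/
abbrev AffPts (R : Type u) [CommRing R] [Algebra k R] : Type u :=
  SchemeHomOver (affTest (k := k) R) f

theorem affTest_comp {R S : Type u} [CommRing R] [Algebra k R] [CommRing S] [Algebra k S]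
    (g : R →ₐ[k] S) :
    Spec.map (CommRingCat.ofHom g.toRingHom) ≫ affTest (k := k) R = affTest (k := k) S := by
  rw [affTest, affTest, ← Spec.map_comp, ← CommRingCat.ofHom_comp]
  exact congrArg (fun r => Spec.map (CommRingCat.ofHom r)) g.comp_algebraMap

/-- Functoriality of points along algebra maps. -/
abbrev affMap {R S : Type u} [CommRing R] [Algebra k R] [CommRing S] [Algebra k S]
    (g : R →ₐ[k] S) (x : AffPts f R) : AffPts f S :=
  schemeHomOverComp (Spec.map (CommRingCat.ofHom g.toRingHom)) (affTest_comp g) x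

theorem schemeHomOverComp_comp {B T T' T'' A : Scheme.{u}} {t : T ⟶ B} {t' : T' ⟶ B}
    {t'' : T'' ⟶ B} {g : A ⟶ B} (ψ : T' ⟶ T) (hψ : ψ ≫ t = t') (χ : T'' ⟶ T')
    (hχ : χ ≫ t' = t'') (x : SchemeHomOver t g) :
    schemeHomOverComp χ hχ (schemeHomOverComp ψ hψ x) =
      schemeHomOverComp (χ ≫ ψ) (by rw [Category.assoc, hψ, hχ]) x :=
  Subtype.ext (Category.assoc _ _ _).symm

variable {f}

/-- A scheme over `Spec k` mapping from an affine scheme is a map from an affine test scheme. -/
theorem exists_algebra_over {T : Scheme.{u}} (t : T ⟶ Spec (CommRingCat.of k))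
    {S : CommRingCat.{u}} (ψ : Spec S ⟶ T) :
    ∃ _ : Algebra k S, ψ ≫ t = affTest (k := k) S := by
  refine ⟨(Spec.preimage (ψ ≫ t)).hom.toAlgebra, ?_⟩
  rw [affTest, RingHom.algebraMap_toAlgebra, CommRingCat.ofHom_hom, Spec.map_preimage]

/-- Two points agreeing on all affine test schemes are equal. -/
theorem eq_of_forall_affPts {T : Scheme.{u}} {t : T ⟶ Spec (CommRingCat.of k)}
    {a b : SchemeHomOver t f}
    (h : ∀ (R : Type u) [CommRing R] [Algebra k R] (ψ : Spec (CommRingCat.of R) ⟶ T)
      (hψ : ψ ≫ t = affTest (k := k) R), schemeHomOverComp ψ hψ a = schemeHomOverComp ψ hψ b) :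
    a = b := by
  have key : ∀ (S : CommRingCat.{u}) (ψ : Spec S ⟶ T), ψ ≫ a.1 = ψ ≫ b.1 := fun S ψ => by
    obtain ⟨algS, hS⟩ := exists_algebra_over t ψ
    exact congrArg Subtype.val (@h S _ algS ψ hS)
  exact Subtype.ext (T.affineOpenCover.openCover.hom_ext _ _ fun j => key _ (T.affineOpenCover.f j))

section Extend

variable {ι : Type v}
  (op : ∀ (R : Type u) [CommRing R] [Algebra k R], (ι → AffPts f R) → AffPts f R)
  (nat : ∀ (R S : Type u) [CommRing R] [Algebra k R] [CommRing S] [Algebra k S] (g : R →ₐ[k] S)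
    (x : ι → AffPts f R), affMap f g (op R x) = op S fun i => affMap f g (x i))

include nat in
/-- Naturality for an arbitrary morphism between affine test schemes. -/
theorem comp_op_eq {R S : Type u} [CommRing R] [Algebra k R] [CommRing S] [Algebra k S]
    (q : Spec (CommRingCat.of S) ⟶ Spec (CommRingCat.of R))
    (hq : q ≫ affTest (k := k) R = affTest (k := k) S) (x : ι → AffPts f R) :
    schemeHomOverComp q hq (op R x) = op S fun i => schemeHomOverComp q hq (x i) := by
  obtain ⟨φ, rfl⟩ := Spec.map_surjective q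
  have hc : ∀ r : k, φ.hom (algebraMap k R r) = algebraMap k S r := fun r => by
    have h := hq
    rw [affTest, affTest, ← Spec.map_comp, Spec.map_inj] at h
    exact congr($(h) r)
  exact nat R S { toRingHom := φ.hom, commutes' := hc } x

include nat in
/-- A natural operation on affine points extends uniquely to all points. -/
theorem existsUnique_extend {T : Scheme.{u}} (t : T ⟶ Spec (CommRingCat.of k))
    (x : ι → SchemeHomOver t f) :
    ∃! z : SchemeHomOver t f, ∀ (R : Type u) [CommRing R] [Algebra k R]
      (ψ : Spec (CommRingCat.of R) ⟶ T) (hψ : ψ ≫ t = affTest (k := k) R),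
      schemeHomOverComp ψ hψ z = op R fun i => schemeHomOverComp ψ hψ (x i) := by
  have chart : ∀ (S : CommRingCat.{u}) (ψ : Spec S ⟶ T), ∃ z : Spec S ⟶ P,
      z ≫ f = ψ ≫ t ∧ ∀ (R : Type u) [CommRing R] [Algebra k R]
        (q : Spec (CommRingCat.of R) ⟶ Spec S)
        (hq : (q ≫ ψ) ≫ t = affTest (k := k) R),
        q ≫ z = (op R fun i => schemeHomOverComp (q ≫ ψ) hq (x i)).1 := fun S ψ => by
    obtain ⟨algS, hS⟩ := exists_algebra_over t ψ
    refine ⟨(@op S _ algS fun i => schemeHomOverComp ψ hS (x i)).1,
      (@op S _ algS fun i => schemeHomOverComp ψ hS (x i)).2.trans hS.symm,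
      fun R _ _ q hq => ?_⟩
    have hq' : q ≫ affTest (k := k) S = affTest (k := k) R := by
      rw [← hS, ← Category.assoc, hq]
    have h := comp_op_eq op nat q hq' fun i => schemeHomOverComp ψ hS (x i)
    simp only [schemeHomOverComp_comp] at h
    exact congrArg Subtype.val h
  choose zS hzS key using chart
  have hcompat : ∀ (A : CommRingCat.{u}) (p : Spec A ⟶ T) (B : CommRingCat.{u}) (q : Spec B ⟶ T),
      pullback.fst p q ≫ zS A p = pullback.snd p q ≫ zS B q := fun A p B q => by
    have hSW : ∀ (S : CommRingCat.{u}) (c : Spec S ⟶ pullback p q),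
        c ≫ pullback.fst p q ≫ zS A p = c ≫ pullback.snd p q ≫ zS B q := fun S c => by
      obtain ⟨algS, hc⟩ := exists_algebra_over (pullback.fst p q ≫ p ≫ t) c
      have h₁ := key A p S (c ≫ pullback.fst _ _) (by simpa only [Category.assoc] using hc)
      have h₂ := key B q S (c ≫ pullback.snd _ _) (by
        rw [pullback.condition_assoc] at hc
        simpa only [Category.assoc] using hc)
      simp only [Category.assoc, pullback.condition] at h₁ h₂
      exact h₁.trans h₂.symm
    exact (pullback p q).affineOpenCover.openCover.hom_ext _ _ fun c =>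
      hSW _ ((pullback p q).affineOpenCover.f c)
  let z : T ⟶ P := T.affineOpenCover.openCover.glueMorphisms
    (fun j => zS _ (T.affineOpenCover.f j)) fun a b => hcompat _ _ _ _
  have hz : ∀ j, T.affineOpenCover.f j ≫ z = zS _ (T.affineOpenCover.f j) :=
    T.affineOpenCover.openCover.ι_glueMorphisms _ _
  have hzt : z ≫ f = t := T.affineOpenCover.openCover.hom_ext _ _ fun j => by
    exact ((Category.assoc _ _ _).symm.trans (congrArg (· ≫ f) (hz j))).trans (hzS _ _)
  have hspec : ∀ (R : Type u) [CommRing R] [Algebra k R]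
      (ψ : Spec (CommRingCat.of R) ⟶ T) (hψ : ψ ≫ t = affTest (k := k) R),
      schemeHomOverComp ψ hψ (⟨z, hzt⟩ : SchemeHomOver t f) =
        op R fun i => schemeHomOverComp ψ hψ (x i) := fun R _ _ ψ hψ => by
    have hloc : ∀ (j : T.affineOpenCover.I₀) (A : CommRingCat.{u}) (p : Spec A ⟶ T)
        (_ : p ≫ z = zS A p) (S : CommRingCat.{u}) (c : Spec S ⟶ pullback ψ p),
        c ≫ pullback.fst ψ p ≫ ψ ≫ z = c ≫ pullback.fst ψ p ≫
          (op R fun i => schemeHomOverComp ψ hψ (x i)).1 := fun _ A p hp S c => by
      obtain ⟨algS, hc⟩ := exists_algebra_over (pullback.fst ψ p ≫ affTest (k := k) R) c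
      have h₁ := key A p S (c ≫ pullback.snd _ _) (by
        rw [← hψ, pullback.condition_assoc] at hc
        simpa only [Category.assoc] using hc)
      have h₂ := congrArg Subtype.val (comp_op_eq op nat (c ≫ pullback.fst _ _)
        (by simpa only [Category.assoc] using hc) fun i => schemeHomOverComp ψ hψ (x i))
      simp only [schemeHomOverComp_comp, schemeHomOverComp_coe, Category.assoc] at h₁ h₂
      rw [h₂, pullback.condition_assoc, hp, h₁]
      simp only [pullback.condition]
    refine Subtype.ext (Scheme.Cover.hom_ext (T.affineOpenCover.openCover.pullback₁ ψ) _ _ fun j => ?_)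
    exact (pullback ψ (T.affineOpenCover.f j)).affineOpenCover.openCover.hom_ext _ _ fun c =>
      hloc j _ _ (hz j) _ ((pullback ψ (T.affineOpenCover.f j)).affineOpenCover.f c)
  exact ⟨⟨z, hzt⟩, fun R _ _ ψ hψ => hspec R ψ hψ,
    fun z' hz' => eq_of_forall_affPts fun R _ _ ψ hψ => (hz' R ψ hψ).trans (hspec R ψ hψ).symm⟩

include nat in
/-- The extension of a natural operation. -/
theorem exists_extend : ∃ E : ∀ {T : Scheme.{u}} (t : T ⟶ Spec (CommRingCat.of k)),
    (ι → SchemeHomOver t f) → SchemeHomOver t f,
    ∀ {T : Scheme.{u}} (t : T ⟶ Spec (CommRingCat.of k)) (x : ι → SchemeHomOver t f)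
      (R : Type u) [CommRing R] [Algebra k R] (ψ : Spec (CommRingCat.of R) ⟶ T)
      (hψ : ψ ≫ t = affTest (k := k) R),
      schemeHomOverComp ψ hψ (E t x) = op R fun i => schemeHomOverComp ψ hψ (x i) :=
  ⟨fun t x => (existsUnique_extend op nat t x).exists.choose,
    fun t x => (existsUnique_extend op nat t x).exists.choose_spec⟩

end Extend

section GroupLaw

variable (f)
variable (mul : ∀ (R : Type u) [CommRing R] [Algebra k R], AffPts f R → AffPts f R → AffPts f R)
  (one : ∀ (R : Type u) [CommRing R] [Algebra k R], AffPts f R)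
  (inv : ∀ (R : Type u) [CommRing R] [Algebra k R], AffPts f R → AffPts f R)
  (mul_assoc : ∀ (R : Type u) [CommRing R] [Algebra k R] (x y z : AffPts f R),
    mul R (mul R x y) z = mul R x (mul R y z))
  (one_mul : ∀ (R : Type u) [CommRing R] [Algebra k R] (x : AffPts f R), mul R (one R) x = x)
  (inv_mul : ∀ (R : Type u) [CommRing R] [Algebra k R] (x : AffPts f R),
    mul R (inv R x) x = one R)
  (mul_nat : ∀ (R S : Type u) [CommRing R] [Algebra k R] [CommRing S] [Algebra k S]
    (g : R →ₐ[k] S) (x y : AffPts f R),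
    affMap f g (mul R x y) = mul S (affMap f g x) (affMap f g y))

include mul_assoc one_mul inv_mul mul_nat in
/-- A natural group structure on affine points extends to a relative group law, which agrees with
it on affine test schemes and is commutative as soon as it is so on affine test schemes. -/
theorem exists_relativeGroupLaw_of_affine :
    ∃ G : RelativeGroupLaw k f,
      (∀ (R : Type u) [CommRing R] [Algebra k R] (x y : AffPts f R),
        G.mul (affTest (k := k) R) x y = mul R x y) ∧
      (∀ (R : Type u) [CommRing R] [Algebra k R], G.one (affTest (k := k) R) = one R) ∧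
      (∀ (R : Type u) [CommRing R] [Algebra k R] (x : AffPts f R),
        G.inv (affTest (k := k) R) x = inv R x) ∧
      ((∀ (R : Type u) [CommRing R] [Algebra k R] (x y : AffPts f R), mul R x y = mul R y x) →
        G.IsCommutative) := by
  let grp : ∀ (R : Type u) [CommRing R] [Algebra k R], Group (AffPts f R) := fun R _ _ =>
    letI : Mul (AffPts f R) := ⟨mul R⟩
    letI : One (AffPts f R) := ⟨one R⟩
    letI : Inv (AffPts f R) := ⟨inv R⟩
    Group.ofLeftAxioms (mul_assoc R) (one_mul R) (inv_mul R)
  have mul_one : ∀ (R : Type u) [CommRing R] [Algebra k R] (x : AffPts f R),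
      mul R x (one R) = x := fun R _ _ x => (grp R).mul_one x
  have one_nat : ∀ (R S : Type u) [CommRing R] [Algebra k R] [CommRing S] [Algebra k S]
      (g : R →ₐ[k] S), affMap f g (one R) = one S := fun R S _ _ _ _ g => by
    let := grp S
    refine mul_eq_left (a := affMap f g (one R)).1 ?_
    show mul S (affMap f g (one R)) (affMap f g (one R)) = affMap f g (one R)
    rw [← mul_nat, one_mul]
  have inv_nat : ∀ (R S : Type u) [CommRing R] [Algebra k R] [CommRing S] [Algebra k S]
      (g : R →ₐ[k] S) (x : AffPts f R),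
      affMap f g (inv R x) = inv S (affMap f g x) := fun R S _ _ _ _ g x => by
    let := grp S
    refine eq_inv_of_mul_eq_one_left (a := affMap f g (inv R x)) (b := affMap f g x) ?_
    show mul S (affMap f g (inv R x)) (affMap f g x) = one S
    rw [← mul_nat, inv_mul, one_nat]
  obtain ⟨M, hM⟩ := exists_extend (ι := Fin 2) (fun R _ _ x => mul R (x 0) (x 1))
    fun R S _ _ _ _ g x => mul_nat R S g (x 0) (x 1)
  obtain ⟨E, hE⟩ := exists_extend (ι := Fin 0) (fun R _ _ _ => one R)
    fun R S _ _ _ _ g _ => one_nat R S g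
  obtain ⟨I, hI⟩ := exists_extend (ι := Fin 1) (fun R _ _ x => inv R (x 0))
    fun R S _ _ _ _ g x => inv_nat R S g (x 0)
  have hM' : ∀ {T : Scheme.{u}} (t : T ⟶ Spec (CommRingCat.of k)) (x y : SchemeHomOver t f)
      (R : Type u) [CommRing R] [Algebra k R] (ψ : Spec (CommRingCat.of R) ⟶ T)
      (hψ : ψ ≫ t = affTest (k := k) R), schemeHomOverComp ψ hψ (M t ![x, y]) =
        mul R (schemeHomOverComp ψ hψ x) (schemeHomOverComp ψ hψ y) :=
    fun t x y R _ _ ψ hψ => hM t ![x, y] R ψ hψ
  have hI' : ∀ {T : Scheme.{u}} (t : T ⟶ Spec (CommRingCat.of k)) (x : SchemeHomOver t f)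
      (R : Type u) [CommRing R] [Algebra k R] (ψ : Spec (CommRingCat.of R) ⟶ T)
      (hψ : ψ ≫ t = affTest (k := k) R), schemeHomOverComp ψ hψ (I t ![x]) =
        inv R (schemeHomOverComp ψ hψ x) :=
    fun t x R _ _ ψ hψ => hI t ![x] R ψ hψ
  have hid : ∀ {T : Scheme.{u}} (t : T ⟶ Spec (CommRingCat.of k)) (x : SchemeHomOver t f),
      schemeHomOverComp (𝟙 T) (Category.id_comp t) x = x :=
    fun t x => Subtype.ext (Category.id_comp x.1)
  let G : RelativeGroupLaw k f :=
    { mul := fun t x y => M t ![x, y]
      one := fun t => E t ![]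
      inv := fun t x => I t ![x]
      mul_assoc := fun t x y z => eq_of_forall_affPts fun R _ _ ψ hψ => by
        simp only [hM', mul_assoc]
      one_mul := fun t x => eq_of_forall_affPts fun R _ _ ψ hψ => by
        simp only [hM', hE, one_mul]
      mul_one := fun t x => eq_of_forall_affPts fun R _ _ ψ hψ => by
        simp only [hM', hE, mul_one]
      inv_mul_cancel := fun t x => eq_of_forall_affPts fun R _ _ ψ hψ => by
        simp only [hM', hI', hE, inv_mul]
      mul_natural := fun t t' χ hχ x y => eq_of_forall_affPts fun R _ _ ψ hψ => by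
        rw [schemeHomOverComp_comp, hM', hM', schemeHomOverComp_comp, schemeHomOverComp_comp] }
  refine ⟨G, fun R _ _ x y => ?_, fun R _ _ => ?_, fun R _ _ x => ?_, fun hc T t x y => ?_⟩
  · rw [← hid _ (G.mul _ x y)]
    show schemeHomOverComp _ _ (M _ ![x, y]) = _
    rw [hM', hid, hid]
  · rw [← hid _ (G.one _)]
    exact hE _ _ R _ _
  · rw [← hid _ (G.inv _ x)]
    show schemeHomOverComp _ _ (I _ ![x]) = _
    rw [hI', hid]
  · exact eq_of_forall_affPts fun R _ _ ψ hψ =>
      ((hM' t x y R ψ hψ).trans (hc R _ _)).trans (hM' t y x R ψ hψ).symm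

end GroupLaw

end Fermat.Agent.RelJac
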