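import Fermat.Agent.RelJac.Charts
import Fermat.Agent.RelJac.CurveModel.Exists
import Fermat.Agent.RelJac.FinalStep
import Fermat.Agent.RelJac.PicProper

/-!
Assembly: a curve model with a functor of rigidified classes of degree zero yields the relative
Picard designation.
-/

noncomputable section

universe u

open CategoryTheory CategoryTheory.Limits AlgebraicGeometry NeronModelInfra GoodReductionJacobian
open AlgebraicGeometry.RelPicard

namespace Fermat.Agent.RelJac

namespace CurveModel

variable {k : Type u} [Field k] [IsAlgClosed k] {C : Scheme.{u}}
  {c : C ⟶ Spec (CommRingCat.of k)} {ε : SchemeHomOver (𝟙 (Spec (CommRingCat.of k))) c}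

/-- A curve model with a functor of rigidified classes of degree zero has a smooth, proper and
geometrically connected scheme representing the classes algebraically equivalent to zero. -/
theorem exists_designation_of_picFunctor [IsProper c] [IsIntegral C] {D : CurveModel c ε}
    {Φ : PicFunctor D} (K : PicClasses Φ) :
    ∃ Dsg : RelativePic0Designation k c,
      Nonempty (RepresentsRelSubPic c ε (algEquivZeroCut c ε) Dsg) ∧
        Smooth Dsg.toBase ∧ IsProper Dsg.toBase ∧ GeometricallyConnected Dsg.toBase := by
  obtain ⟨Ch⟩ := exists_pic0Charts D
  obtain ⟨R⟩ := PicFunctor.exists_representation Φ Ch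
  obtain ⟨hpr, hgi, hgc⟩ := R.J.isProper_pic0
  exact exists_designation R K R.J.smooth hpr hgi hgc

end CurveModel

end Fermat.Agent.RelJac
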