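import Mathlib.AlgebraicGeometry.Geometrically.Irreducible
import Mathlib.AlgebraicGeometry.Morphisms.Smooth
import Mathlib.AlgebraicGeometry.Morphisms.Proper
import Fermat.Prelude.Def_AlgebraicGeometry_RelativeGroupLaw
import Fermat.Agent.RelJac.DomainTensor

/-!
Geometric irreducibility of integral varieties over an algebraically closed field, fibre powers over
the base, their points, and the multiplication map of a power into a group scheme.
-/

open CategoryTheory CategoryTheory.Limits AlgebraicGeometry NeronModelInfra GoodReductionJacobian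
open scoped TensorProduct

namespace Fermat.Agent.RelJac

universe u

variable {k : Type u} [Field k] {C : Scheme.{u}}

/-- An integral scheme locally of finite type over an algebraically closed field is geometrically
irreducible. -/
theorem geometricallyIrreducible_of_isIntegral [IsAlgClosed k]
    (c : C ⟶ Spec (CommRingCat.of k)) [LocallyOfFiniteType c] [IsIntegral C] :
    GeometricallyIrreducible c := by
  refine ⟨geometrically_iff_of_commRing_of_isClosedUnderIsomorphisms.mpr fun K _ _ => ?_⟩
  let y : Spec (CommRingCat.of K) ⟶ Spec (CommRingCat.of k) :=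
    Spec.map (CommRingCat.ofHom (algebraMap k K))
  change IrreducibleSpace ↥(pullback c y)
  obtain ⟨_, ⟨V, hV, rfl⟩, hgV, -⟩ := C.isBasis_affineOpens.exists_subset_of_mem_open
    (Set.mem_univ (genericPoint C)) isOpen_univ
  have : Nonempty V := ⟨⟨_, hgV⟩⟩
  obtain ⟨φ, hφ⟩ : ∃ φ : CommRingCat.of k ⟶ CommRingCat.of Γ(C, V),
      Spec.map φ = hV.fromSpec ≫ c := ⟨Spec.preimage _, Spec.map_preimage _⟩
  let : Algebra k Γ(C, V) := φ.hom.toAlgebra
  have : Algebra.FiniteType k Γ(C, V) := by
    have h : LocallyOfFiniteType (Spec.map φ) := by rw [hφ]; infer_instance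
    exact (HasRingHomProperty.Spec_iff (P := @LocallyOfFiniteType)).1 h
  have : IsDomain (Γ(C, V) ⊗[k] K) :=
    have := isDomain_tensorProduct (k := k) (A := Γ(C, V)) K
    MulEquiv.isDomain (K ⊗[k] Γ(C, V)) (Algebra.TensorProduct.comm k Γ(C, V) K).toMulEquiv
  have hirr : IrreducibleSpace ↥(pullback (hV.fromSpec ≫ c) y) := by
    rw [← hφ]
    exact (pullbackSpecIso k Γ(C, V) K).hom.homeomorph.irreducibleSpace_iff.2
      (inferInstanceAs (IrreducibleSpace (PrimeSpectrum (Γ(C, V) ⊗[k] K))))
  let i : pullback (hV.fromSpec ≫ c) y ⟶ pullback c y :=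
    (pullbackRightPullbackFstIso c y hV.fromSpec).inv ≫
      pullback.snd hV.fromSpec (pullback.fst c y)
  have hri : Set.range i = pullback.fst c y ⁻¹' (V : Set C) := by
    have h2 : Set.range (pullback.snd hV.fromSpec (pullback.fst c y)) =
        pullback.fst c y ⁻¹' (V : Set C) := by
      rw [IsOpenImmersion.range_pullbackSnd, ← hV.range_fromSpec]
      rfl
    rw [← h2]
    exact Function.Surjective.range_comp
      (pullbackRightPullbackFstIso c y hV.fromSpec).inv.homeomorph.surjective _
  have hd : Dense (Set.range i) := by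
    rw [hri]
    exact (V.isOpen.dense ⟨_, hgV⟩).preimage (pullback.fst c y).isOpenMap
  rw [irreducibleSpace_def, Set.top_eq_univ, ← hd.closure_eq, ← Set.image_univ]
  exact ((IrreducibleSpace.isIrreducible_univ _).image _ i.continuous.continuousOn).closure

variable (c : C ⟶ Spec (CommRingCat.of k))

/-- The fibre powers of `c`, with their structure maps. -/
noncomputable def powOver : ℕ → Σ Y : Scheme.{u}, Y ⟶ Spec (CommRingCat.of k)
  | 0 => ⟨Spec (CommRingCat.of k), 𝟙 _⟩
  | n + 1 => ⟨pullback (powOver n).2 c, pullback.fst (powOver n).2 c ≫ (powOver n).2⟩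

/-- The `n`-fold fibre power of `c`. -/
noncomputable abbrev powScheme (n : ℕ) : Scheme.{u} := (powOver c n).1

/-- The structure map of the fibre power. -/
noncomputable abbrev powMap (n : ℕ) : powScheme c n ⟶ Spec (CommRingCat.of k) := (powOver c n).2

/-- A fibre power of a proper curve is proper. -/
theorem isProper_powMap [IsProper c] : ∀ n, IsProper (powMap c n)
  | 0 => inferInstanceAs (IsProper (𝟙 (Spec (CommRingCat.of k))))
  | n + 1 =>
    have := isProper_powMap n
    inferInstanceAs (IsProper (pullback.fst (powMap c n) c ≫ powMap c n))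

/-- A fibre power of a geometrically irreducible scheme is geometrically irreducible. -/
theorem geometricallyIrreducible_powMap [GeometricallyIrreducible c] :
    ∀ n, GeometricallyIrreducible (powMap c n)
  | 0 => ⟨fun K _ y Z fst snd h => by
      have h' : IsPullback fst snd (𝟙 (Spec (CommRingCat.of k))) y := h
      have : IsIso snd := @IsPullback.isIso_snd_of_isIso _ _ _ _ _ _ _ _ _ _ h' (IsIso.id _)
      have : IrreducibleSpace (Spec (CommRingCat.of K)) :=
        inferInstanceAs (IrreducibleSpace (PrimeSpectrum K))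
      exact (asIso snd).hom.homeomorph.irreducibleSpace_iff.2 this⟩
  | n + 1 =>
    have := geometricallyIrreducible_powMap n
    GeometricallyIrreducible.comp (pullback.fst (powMap c n) c) (powMap c n)

/-- Dropping the last coordinate. -/
noncomputable def powFst (n : ℕ) : powScheme c (n + 1) ⟶ powScheme c n :=
  pullback.fst (powMap c n) c

/-- The last coordinate. -/
noncomputable def powSnd (n : ℕ) : powScheme c (n + 1) ⟶ C :=
  pullback.snd (powMap c n) c

theorem powFst_comp (n : ℕ) : powFst c n ≫ powMap c n = powMap c (n + 1) := rfl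

theorem powSnd_comp (n : ℕ) : powSnd c n ≫ c = powMap c (n + 1) :=
  (pullback.condition (f := powMap c n) (g := c)).symm

/-- Appending a coordinate. -/
noncomputable def powPair {n : ℕ} {W : Scheme.{u}} (a : W ⟶ powScheme c n) (b : W ⟶ C)
    (h : a ≫ powMap c n = b ≫ c) : W ⟶ powScheme c (n + 1) :=
  pullback.lift a b h

@[reassoc (attr := simp)]
theorem powPair_fst {n : ℕ} {W : Scheme.{u}} (a : W ⟶ powScheme c n) (b : W ⟶ C) (h) :
    powPair c a b h ≫ powFst c n = a :=
  pullback.lift_fst _ _ _

@[reassoc (attr := simp)]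
theorem powPair_snd {n : ℕ} {W : Scheme.{u}} (a : W ⟶ powScheme c n) (b : W ⟶ C) (h) :
    powPair c a b h ≫ powSnd c n = b :=
  pullback.lift_snd _ _ _

variable {T : Scheme.{u}} {t : T ⟶ Spec (CommRingCat.of k)}

/-- A tuple of points gives a point of the power. -/
noncomputable def powLift : {n : ℕ} → (Fin n → SchemeHomOver t c) → SchemeHomOver t (powMap c n)
  | 0, _ => ⟨t, Category.comp_id t⟩
  | n + 1, x => ⟨powPair c (powLift (Fin.init x)).1 (x (Fin.last n)).1
      ((powLift (Fin.init x)).2.trans (x (Fin.last n)).2.symm),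
      by rw [← powFst_comp, powPair_fst_assoc, (powLift (Fin.init x)).2]⟩

/-- The coordinates of a point of the power. -/
noncomputable def powCoord : {n : ℕ} → SchemeHomOver t (powMap c n) → Fin n → SchemeHomOver t c
  | 0, _ => Fin.elim0
  | n + 1, p => Fin.snoc
      (powCoord ⟨p.1 ≫ powFst c n, by rw [Category.assoc, powFst_comp, p.2]⟩)
      ⟨p.1 ≫ powSnd c n, by rw [Category.assoc, powSnd_comp, p.2]⟩

theorem powCoord_powLift : ∀ {n : ℕ} (x : Fin n → SchemeHomOver t c),
    powCoord c (powLift c x) = x
  | 0, x => funext fun i => i.elim0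
  | n + 1, x => by
    conv_rhs => rw [← Fin.snoc_init_self x]
    simp only [powLift, powCoord, powPair_fst, powPair_snd, Subtype.coe_eta]
    rw [powCoord_powLift (Fin.init x)]

theorem powCoord_comp {T' : Scheme.{u}} {t' : T' ⟶ Spec (CommRingCat.of k)} (ψ : T' ⟶ T)
    (hψ : ψ ≫ t = t') : ∀ {n : ℕ} (p : SchemeHomOver t (powMap c n)) (i : Fin n),
    powCoord c (schemeHomOverComp ψ hψ p) i = schemeHomOverComp ψ hψ (powCoord c p i)
  | 0, _, i => i.elim0
  | n + 1, p, i => by
    induction i using Fin.lastCases with
    | last => simp [powCoord, schemeHomOverComp]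
    | cast i =>
      simp only [powCoord, Fin.snoc_castSucc]
      rw [← powCoord_comp ψ hψ]
      congr 1

variable {P : Scheme.{u}} {f : P ⟶ Spec (CommRingCat.of k)} (G : RelativeGroupLaw k f)

/-- The ordered product of a tuple of points of a group scheme. -/
def mulTuple : {n : ℕ} → (Fin n → SchemeHomOver t f) → SchemeHomOver t f
  | 0, _ => G.one t
  | n + 1, x => G.mul t (mulTuple (Fin.init x)) (x (Fin.last n))

theorem mulTuple_natural {T' : Scheme.{u}} {t' : T' ⟶ Spec (CommRingCat.of k)} (ψ : T' ⟶ T)
    (hψ : ψ ≫ t = t') : ∀ {n : ℕ} (x : Fin n → SchemeHomOver t f),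
    schemeHomOverComp ψ hψ (mulTuple G x) = mulTuple G fun i => schemeHomOverComp ψ hψ (x i)
  | 0, _ => G.one_natural t t' ψ hψ
  | n + 1, x => by
    rw [mulTuple, G.mul_natural t t' ψ hψ, mulTuple_natural ψ hψ (Fin.init x)]
    rfl

/-- The map `Cⁿ → P` sending `(x_i)` to the product of the `j (x_i)`. -/
noncomputable def powProd (j : SchemeHomOver c f) (n : ℕ) : SchemeHomOver (powMap c n) f :=
  mulTuple G fun i =>
    let q := powCoord c (⟨𝟙 _, Category.id_comp _⟩ : SchemeHomOver (powMap c n) (powMap c n)) i
    ⟨q.1 ≫ j.1, by rw [Category.assoc, j.2, q.2]⟩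

/-- The value of `powProd` on a tuple of points. -/
theorem powProd_powLift (j : SchemeHomOver c f) {n : ℕ} (x : Fin n → SchemeHomOver t c) :
    (powLift c x).1 ≫ (powProd c G j n).1 =
      (mulTuple G fun i => (⟨(x i).1 ≫ j.1, by rw [Category.assoc, j.2, (x i).2]⟩ :
        SchemeHomOver t f)).1 := by
  rw [← schemeHomOverComp_coe (powLift c x).1 (powLift c x).2 (powProd c G j n), powProd,
    mulTuple_natural]
  refine congrArg (fun y => (mulTuple G y).1) (funext fun i => Subtype.ext ?_)
  let one' : SchemeHomOver (powMap c n) (powMap c n) := ⟨𝟙 _, Category.id_comp _⟩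
  have h : schemeHomOverComp (powLift c x).1 (powLift c x).2 (powCoord c one' i) = x i := by
    rw [← powCoord_comp]
    have : schemeHomOverComp (powLift c x).1 (powLift c x).2 one' = powLift c x :=
      Subtype.ext (Category.comp_id _)
    rw [this, powCoord_powLift]
  rw [← h]
  simp [one', schemeHomOverComp]

end Fermat.Agent.RelJac
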