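import Mathlib.AlgebraicGeometry.AlgClosed.Basic
import Mathlib.AlgebraicGeometry.Morphisms.Proper
import Mathlib.AlgebraicGeometry.Geometrically.Irreducible
import Mathlib.AlgebraicGeometry.Geometrically.Connected
import Fermat.Prelude.Def_AlgebraicGeometry_NeronModelPropertyBundleCarrier

/-!
Targets of proper geometrically irreducible schemes surjecting on rational points.
-/

open CategoryTheory CategoryTheory.Limits AlgebraicGeometry NeronModelInfra

namespace Fermat.Agent.RelJac

universe u

variable {k : Type u} [Field k] [IsAlgClosed k] {Y P : Scheme.{u}}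
  (y : Y ⟶ Spec (CommRingCat.of k)) (f : P ⟶ Spec (CommRingCat.of k)) (g : SchemeHomOver y f)

/-- A map from a proper scheme which is surjective on rational points is surjective. -/
theorem surjective_of_points [IsProper y] [IsSeparated f] [LocallyOfFiniteType f]
    (hpts : ∀ p : SchemeHomOver (𝟙 (Spec (CommRingCat.of k))) f,
      ∃ q : SchemeHomOver (𝟙 (Spec (CommRingCat.of k))) y, q.1 ≫ g.1 = p.1) :
    Surjective g.1 := by
  have : IsProper (g.1 ≫ f) := by rw [g.2]; infer_instance
  have : IsProper g.1 := IsProper.of_comp g.1 f
  have : JacobsonSpace P := LocallyOfFiniteType.jacobsonSpace f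
  refine ⟨Set.range_eq_univ.1 ?_⟩
  rw [Set.eq_univ_iff_forall]
  intro p
  have hcl : IsClosed (Set.range g.1) := g.1.isClosedMap.isClosed_range
  have hsub : closedPoints P ⊆ Set.range g.1 := fun x hx => by
    obtain ⟨q, hq⟩ := hpts ⟨pointOfClosedPoint f x hx, pointOfClosedPoint_comp f x hx⟩
    refine ⟨q.1 (IsLocalRing.closedPoint k), ?_⟩
    rw [← Scheme.Hom.comp_apply, hq]
    exact pointOfClosedPoint_apply f x hx _
  exact (hcl.closure_subset_iff.2 hsub) (by rw [closure_closedPoints]; trivial)

omit [IsAlgClosed k] in
/-- The target of a surjection from a proper scheme is proper, if separated of finite type. -/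
theorem isProper_of_surjective [IsProper y] [IsSeparated f] [LocallyOfFiniteType f]
    [Surjective g.1] : IsProper f := by
  have : UniversallyClosed (g.1 ≫ f) := by rw [g.2]; infer_instance
  have : UniversallyClosed f := UniversallyClosed.of_comp_surjective g.1 f
  exact ⟨⟩

omit [IsAlgClosed k] in
/-- The target of a surjection from a geometrically irreducible scheme is one. -/
theorem geometricallyIrreducible_of_surjective [GeometricallyIrreducible y] [Surjective g.1] :
    GeometricallyIrreducible f := by
  refine ⟨geometrically_iff_of_isClosedUnderIsomorphisms.mpr fun K _ s => ?_⟩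
  have : GeometricallyIrreducible (g.1 ≫ f) := by rw [g.2]; infer_instance
  have hirr : IrreducibleSpace ↥(pullback (g.1 ≫ f) s) :=
    pullback_of_geometrically GeometricallyIrreducible.geometrically_irreducibleSpace K s
  let h : pullback (g.1 ≫ f) s ⟶ pullback f s :=
    (pullbackRightPullbackFstIso f s g.1).inv ≫ pullback.snd g.1 (pullback.fst f s)
  have : Surjective (pullback.snd g.1 (pullback.fst f s)) :=
    MorphismProperty.pullback_snd _ _ ‹Surjective g.1›
  have hh : Surjective h := by dsimp only [h]; infer_instance
  have hs : Function.Surjective h := hh.1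
  rw [irreducibleSpace_def, Set.top_eq_univ, ← Set.range_eq_univ.2 hs, ← Set.image_univ]
  exact (IrreducibleSpace.isIrreducible_univ _).image _ h.continuous.continuousOn

omit [IsAlgClosed k] in
/-- Geometrically irreducible implies geometrically connected. -/
theorem geometricallyConnected_of_irreducible [GeometricallyIrreducible f] :
    GeometricallyConnected f :=
  ⟨fun K _ s Z fst snd h => by
    have : IrreducibleSpace Z :=
      GeometricallyIrreducible.geometrically_irreducibleSpace (f := f) s fst snd h
    exact inferInstanceAs (ConnectedSpace Z)⟩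

end Fermat.Agent.RelJac
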