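import Mathlib.AlgebraicGeometry.Geometrically.Integral
import Mathlib.AlgebraicGeometry.Morphisms.Smooth
import Mathlib.RingTheory.Unramified.Field
import Mathlib.RingTheory.RingHom.StandardSmooth
import Mathlib.RingTheory.LocalProperties.Reduced

/-!
Schemes smooth over a field are geometrically reduced.
-/

open CategoryTheory CategoryTheory.Limits AlgebraicGeometry
open scoped TensorProduct

namespace Fermat.Agent.RelJac

universe u

/-- An étale algebra over a domain is reduced. -/
theorem isReduced_of_etale (B A : Type u) [CommRing B] [IsDomain B] [CommRing A] [Algebra B A]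
    [Algebra.Etale B A] : _root_.IsReduced A := by
  have : Module.Flat B A := Algebra.Smooth.flat B A
  have hinj : Function.Injective
      (Algebra.TensorProduct.includeRight : A →ₐ[B] FractionRing B ⊗[B] A) :=
    Algebra.TensorProduct.includeRight_injective (IsFractionRing.injective B (FractionRing B))
  have : _root_.IsReduced (FractionRing B ⊗[B] A) :=
    Algebra.FormallyUnramified.isReduced_of_field (FractionRing B) _
  exact isReduced_of_injective _ hinj

/-- A scheme smooth over a field is reduced. -/
theorem isReduced_of_smooth {k : Type u} [Field k] {P : Scheme.{u}}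
    (f : P ⟶ Spec (CommRingCat.of k)) [Smooth f] : AlgebraicGeometry.IsReduced P := by
  refine @isReduced_of_isReduced_stalk P ?_
  intro p
  obtain ⟨U, -, V, hV, hpV, e, hstd⟩ := Smooth.exists_isStandardSmooth f p
  have hUtop : U = ⊤ := top_le_iff.1 fun q _ => by
    have : Subsingleton (Spec (CommRingCat.of k)) := inferInstanceAs (Subsingleton (PrimeSpectrum k))
    exact Subsingleton.elim (f p) q ▸ e hpV
  subst hUtop
  obtain ⟨n, g, -, hg⟩ := RingHom.IsStandardSmooth.exists_etale_mvPolynomial hstd
  have : IsDomain Γ(Spec (CommRingCat.of k), ⊤) :=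
    (Scheme.ΓSpecIso (CommRingCat.of k)).commRingCatIsoToRingEquiv.toMulEquiv.isDomain k
  let : Algebra (MvPolynomial (Fin n) Γ(Spec (CommRingCat.of k), ⊤)) Γ(P, V) := g.toAlgebra
  have : Algebra.Etale (MvPolynomial (Fin n) Γ(Spec (CommRingCat.of k), ⊤)) Γ(P, V) := hg
  have : _root_.IsReduced Γ(P, V) :=
    isReduced_of_etale (MvPolynomial (Fin n) Γ(Spec (CommRingCat.of k), ⊤)) _
  let := TopCat.Presheaf.algebra_section_stalk P.presheaf (⟨p, hpV⟩ : V)
  have : IsLocalization.AtPrime (P.presheaf.stalk p) (hV.primeIdealOf ⟨p, hpV⟩).asIdeal :=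
    hV.isLocalization_stalk ⟨p, hpV⟩
  exact isReduced_localizationPreserves (hV.primeIdealOf ⟨p, hpV⟩).asIdeal.primeCompl _ inferInstance

/-- A morphism smooth over a field is geometrically reduced. -/
theorem geometricallyReduced_of_smooth {k : Type u} [Field k] {P : Scheme.{u}}
    (f : P ⟶ Spec (CommRingCat.of k)) [Smooth f] : GeometricallyReduced f := by
  refine ⟨fun K _ y Z fst snd h => ?_⟩
  have : Smooth snd := MorphismProperty.of_isPullback (P := @Smooth) h ‹_›
  exact isReduced_of_smooth snd

/-- A smooth geometrically irreducible scheme over a field is geometrically integral. -/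
theorem geometricallyIntegral_of_smooth {k : Type u} [Field k] {P : Scheme.{u}}
    (f : P ⟶ Spec (CommRingCat.of k)) [Smooth f] [GeometricallyIrreducible f] :
    GeometricallyIntegral f :=
  have := geometricallyReduced_of_smooth f
  .of_geometricallyReduced_of_geometricallyIrreducible f

end Fermat.Agent.RelJac
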