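import Mathlib.AlgebraicGeometry.Sites.Representability
import Mathlib.AlgebraicGeometry.ResidueField
import Mathlib.CategoryTheory.Limits.Shapes.Pullback.IsPullback.Basic
import Mathlib.CategoryTheory.Limits.Types.Pullbacks

/-!
Representability of a Zariski sheaf from affine data: charts with the unique lifting property on
affine test schemes, an open lifting locus, and covering all field-valued points.
-/

open CategoryTheory CategoryTheory.Limits AlgebraicGeometry Opposite

namespace Fermat.Agent.RelJac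

universe u

variable {F : Scheme.{u}ᵒᵖ ⥤ Type u}

/-- A Zariski sheaf separates sections by open covers. -/
theorem sheaf_ext_of_cover (hF : Presieve.IsSheaf Scheme.zariskiTopology F) {T : Scheme.{u}}
    (𝒰 : T.OpenCover) {s s' : F.obj (op T)}
    (h : ∀ j, F.map (𝒰.f j).op s = F.map (𝒰.f j).op s') : s = s' :=
  ((hF _ 𝒰.mem_grothendieckTopology).isSeparatedFor).ext fun {Y} g hg => by
    obtain ⟨Z, a, b, ⟨j⟩, rfl⟩ := hg
    rw [op_comp, Functor.map_comp_apply, Functor.map_comp_apply, h j]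

variable {X : Scheme.{u}} (ξ : F.obj (op X))
  (mono : ∀ (R : CommRingCat.{u}) (a b : Spec R ⟶ X), F.map a.op ξ = F.map b.op ξ → a = b)

include mono in
/-- Uniqueness of lifts on affines gives uniqueness of lifts everywhere. -/
theorem lift_unique {T : Scheme.{u}} (a b : T ⟶ X) (h : F.map a.op ξ = F.map b.op ξ) : a = b :=
  have key : ∀ {S : Scheme.{u}} (p : S ⟶ T), F.map (p ≫ a).op ξ = F.map (p ≫ b).op ξ := fun p => by
    rw [op_comp, op_comp, Functor.map_comp_apply, Functor.map_comp_apply, h]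
  T.affineCover.hom_ext _ _ fun j => mono _ _ _ (key (T.affineCover.f j))

variable (hF : Presieve.IsSheaf Scheme.zariskiTopology F)
  (opn : ∀ (R : CommRingCat.{u}) (η : F.obj (op (Spec R))), ∃ U : (Spec R).Opens,
    ∀ (R' : CommRingCat.{u}) (φ : Spec R' ⟶ Spec R),
      Set.range φ ⊆ (U : Set (Spec R)) ↔
        ∃ a : Spec R' ⟶ X, F.map a.op ξ = F.map φ.op η)

include mono hF opn in
/-- The lifting locus of a section is an open subscheme with a universal lift. -/
theorem exists_lift_locus {T : Scheme.{u}} (η : F.obj (op T)) :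
    ∃ (W : T.Opens) (a : W.toScheme ⟶ X), F.map a.op ξ = F.map W.ι.op η ∧
      ∀ {T' : Scheme.{u}} (φ : T' ⟶ T) (b : T' ⟶ X), F.map b.op ξ = F.map φ.op η →
        Set.range φ ⊆ (W : Set T) := by
  let J := {V : T.Opens // ∃ a : V.toScheme ⟶ X, F.map a.op ξ = F.map V.ι.op η}
  let W : T.Opens := ⨆ j : J, j.1
  let 𝒰 : W.toScheme.OpenCover :=
    { I₀ := J
      X := fun j => j.1.toScheme
      f := fun j => T.homOfLE (le_iSup (fun j : J => j.1) j)
      mem₀ := by
        rw [Scheme.presieve₀_mem_precoverage_iff]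
        refine ⟨fun w => ?_, fun j => inferInstance⟩
        obtain ⟨j, hj⟩ := TopologicalSpace.Opens.mem_iSup.1 w.2
        exact ⟨j, ⟨_, hj⟩, Subtype.ext (by simp)⟩ }
  have hf : ∀ j : J, 𝒰.f j ≫ W.ι = j.1.ι := fun j =>
    Scheme.homOfLE_ι T (le_iSup (fun j : J => j.1) j)
  choose a ha using fun j : J => j.2
  have hcompat : ∀ x y : J, pullback.fst (𝒰.f x) (𝒰.f y) ≫ a x = pullback.snd _ _ ≫ a y := by
    intro x y
    apply lift_unique ξ mono
    rw [op_comp, op_comp, Functor.map_comp_apply, Functor.map_comp_apply, ha, ha,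
      ← Functor.map_comp_apply, ← Functor.map_comp_apply, ← op_comp, ← op_comp, ← hf x, ← hf y,
      pullback.condition_assoc]
  refine ⟨W, 𝒰.glueMorphisms a hcompat, sheaf_ext_of_cover hF 𝒰 fun j => ?_, ?_⟩
  · rw [← Functor.map_comp_apply, ← op_comp, Scheme.Cover.ι_glueMorphisms]
    refine (ha j).trans ?_
    rw [← hf j, op_comp, Functor.map_comp_apply]
  intro T' φ b hb
  rintro _ ⟨t', rfl⟩
  obtain ⟨_, ⟨A, hA, rfl⟩, htA, -⟩ :=
    T.isBasis_affineOpens.exists_subset_of_mem_open (Set.mem_univ (φ t')) isOpen_univ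
  obtain ⟨_, ⟨B, hB, rfl⟩, htB, hBA⟩ :=
    T'.isBasis_affineOpens.exists_subset_of_mem_open (show t' ∈ φ ⁻¹ᵁ A from htA) (φ ⁻¹ᵁ A).isOpen
  obtain ⟨U, hU⟩ := opn _ (F.map hA.fromSpec.op η)
  have hBA' : B ≤ φ ⁻¹ᵁ A := hBA
  have hψ : Spec.map (φ.appLE A B hBA') ≫ hA.fromSpec = hB.fromSpec ≫ φ :=
    IsAffineOpen.SpecMap_appLE_fromSpec φ hA hB hBA'
  obtain ⟨q, hq⟩ := hB.range_fromSpec.ge htB
  have hz : Spec.map (φ.appLE A B hBA') q ∈ U := by
    refine (hU _ (Spec.map (φ.appLE A B hBA'))).2 ⟨hB.fromSpec ≫ b, ?_⟩ ⟨q, rfl⟩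
    rw [op_comp, Functor.map_comp_apply, hb, ← Functor.map_comp_apply, ← op_comp, ← hψ, op_comp,
      Functor.map_comp_apply]
  obtain ⟨_, ⟨V, hV, rfl⟩, hzV, hVU⟩ :=
    (Spec Γ(T, A)).isBasis_affineOpens.exists_subset_of_mem_open hz U.isOpen
  obtain ⟨aV, haV⟩ := (hU _ hV.fromSpec).1 (hV.range_fromSpec.trans_subset hVU)
  let V' : T.Opens := hA.fromSpec ''ᵁ V
  let e : Scheme.Opens.toScheme V ≅ V'.toScheme := hA.fromSpec.isoImage V
  have he : e.inv ≫ Scheme.Opens.ι V ≫ hA.fromSpec = V'.ι := Scheme.Hom.isoImage_inv_ι hA.fromSpec V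
  have hVlift : F.map (e.inv ≫ hV.isoSpec.hom ≫ aV).op ξ = F.map V'.ι.op η := by
    rw [op_comp, op_comp, Functor.map_comp_apply, Functor.map_comp_apply, haV,
      ← Functor.map_comp_apply, ← Functor.map_comp_apply, ← Functor.map_comp_apply,
      ← op_comp, ← op_comp, ← op_comp, ← he]
    simp [IsAffineOpen.isoSpec_hom]
  refine TopologicalSpace.Opens.mem_iSup.2 ⟨⟨V', _, hVlift⟩, ?_⟩
  refine ⟨_, hzV, ?_⟩
  show hA.fromSpec (Spec.map (φ.appLE A B hBA') q) = φ t'
  rw [← Scheme.Hom.comp_apply, hψ, Scheme.Hom.comp_apply, hq]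

include mono hF opn in
/-- The chart is a relatively representable open immersion. -/
theorem isOpenImmersion_presheaf_of_affine_data :
    IsOpenImmersion.presheaf (yonedaEquiv.symm ξ : yoneda.obj X ⟶ F) := by
  refine MorphismProperty.relative.of_exists fun T g => ?_
  obtain ⟨W, a, ha, hW⟩ := exists_lift_locus ξ mono hF opn (yonedaEquiv g)
  have hg : ∀ {T' : Scheme.{u}} (φ : T' ⟶ T), g.app (op T') φ = F.map φ.op (yonedaEquiv g) := by
    intro T' φ
    rw [yonedaEquiv_naturality, yonedaEquiv_apply]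
    simp
  refine ⟨W.toScheme, yoneda.map a, W.ι,
    IsPullback.of_forall_isPullback_app fun S => ?_, inferInstance⟩
  rw [Types.isPullback_iff]
  refine ⟨?_, ?_, ?_⟩
  · ext (b : S.unop ⟶ W.toScheme)
    change F.map (b ≫ a).op ξ = g.app (op S.unop) (b ≫ W.ι)
    rw [hg, op_comp, op_comp, Functor.map_comp_apply, Functor.map_comp_apply, ha]
  · intro (b : S.unop ⟶ W.toScheme) (b' : S.unop ⟶ W.toScheme) h
    exact (cancel_mono W.ι).1 h.2
  · intro (x : S.unop ⟶ X) (φ : S.unop ⟶ T) h
    have h' : F.map x.op ξ = F.map φ.op (yonedaEquiv g) := by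
      rw [← hg]; exact h
    refine ⟨IsOpenImmersion.lift W.ι φ (by simpa using hW φ x h'), ?_, IsOpenImmersion.lift_fac _ _ _⟩
    apply lift_unique ξ mono
    change F.map (_ ≫ a).op ξ = _
    rw [op_comp, Functor.map_comp_apply, ha, h', ← Functor.map_comp_apply, ← op_comp,
      IsOpenImmersion.lift_fac]

/-- Local representability from affine data: the charts become an open cover of the representing
scheme. -/
theorem exists_representableBy_of_affine_data {F : Scheme.{u}ᵒᵖ ⥤ Type u}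
    (hF : Presieve.IsSheaf Scheme.zariskiTopology F) {ι : Type u} (X : ι → Scheme.{u})
    (ξ : ∀ i, F.obj (op (X i)))
    (mono : ∀ i (R : CommRingCat.{u}) (a b : Spec R ⟶ X i),
      F.map a.op (ξ i) = F.map b.op (ξ i) → a = b)
    (opn : ∀ i (R : CommRingCat.{u}) (η : F.obj (op (Spec R))), ∃ U : (Spec R).Opens,
      ∀ (R' : CommRingCat.{u}) (φ : Spec R' ⟶ Spec R),
        Set.range φ ⊆ (U : Set (Spec R)) ↔
          ∃ a : Spec R' ⟶ X i, F.map a.op (ξ i) = F.map φ.op η)
    (cov : ∀ (K : Type u) [Field K] (η : F.obj (op (Spec (CommRingCat.of K)))),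
      ∃ i, ∃ a : Spec (CommRingCat.of K) ⟶ X i, F.map a.op (ξ i) = η) :
    ∃ (P : Scheme.{u}) (hP : F.RepresentableBy P) (j : ∀ i, X i ⟶ P),
      (∀ i, IsOpenImmersion (j i)) ∧ (∀ i, F.map (j i).op (hP.homEquiv (𝟙 P)) = ξ i) ∧
        ∀ p : P, ∃ i, p ∈ Set.range (j i) := by
  let G : Sheaf Scheme.zariskiTopology.{u} (Type u) :=
    ⟨F, (isSheaf_iff_isSheaf_of_type _ _).2 hF⟩
  let f : ∀ i, yoneda.obj (X i) ⟶ G.1 := fun i => yonedaEquiv.symm (ξ i)
  have hf : ∀ i, IsOpenImmersion.presheaf (f i) := fun i =>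
    isOpenImmersion_presheaf_of_affine_data (ξ i) (mono i) hF (opn i)
  have : Presheaf.IsLocallySurjective Scheme.zariskiTopology (Sigma.desc f) := ⟨fun {T} η => by
    choose W a ha hW using fun i => exists_lift_locus (ξ i) (mono i) hF (opn i) η
    let 𝒰 : T.OpenCover :=
      { I₀ := ι
        X := fun i => (W i).toScheme
        f := fun i => (W i).ι
        mem₀ := by
          rw [Scheme.presieve₀_mem_precoverage_iff]
          refine ⟨fun t => ?_, fun i => inferInstance⟩
          obtain ⟨i, b, hb⟩ := cov (T.residueField t)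
            (F.map (T.fromSpecResidueField t).op η)
          refine ⟨i, ?_⟩
          rw [Scheme.Opens.range_ι]
          exact hW i _ b hb ((T.range_fromSpecResidueField t).ge rfl) }
    refine GrothendieckTopology.superset_covering _ ?_ 𝒰.mem_grothendieckTopology
    rw [Sieve.generate_le_iff]
    rintro _ _ ⟨i⟩
    refine ⟨(Sigma.ι (fun i => yoneda.obj (X i)) i).app _ (a i), ?_⟩
    rw [← NatTrans.comp_app_apply, Sigma.ι_desc]
    exact ha i⟩
  refine ⟨_, Scheme.LocalRepresentability.representableBy hf,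
    Scheme.LocalRepresentability.toGlued hf, fun i => inferInstance, fun i => ?_,
    fun p => (Scheme.LocalRepresentability.glueData hf).openCover.exists_eq p⟩
  have h := (Scheme.LocalRepresentability.representableBy hf).homEquiv_eq
    (Scheme.LocalRepresentability.toGlued hf i)
  exact h.symm.trans ((Scheme.LocalRepresentability.yonedaGluedToSheaf_app_toGlued hf).trans
    (yonedaEquiv.apply_symm_apply (ξ i)))

end Fermat.Agent.RelJac
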