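import Mathlib.AlgebraicGeometry.Morphisms.ClosedImmersion
import Mathlib.AlgebraicGeometry.Morphisms.Separated
import Fermat.Prelude.Def_AlgebraicGeometry_RelativeGroupLaw

/-!
A group scheme locally of finite type over a field is separated: the diagonal is the base change of
the unit section along `(x, y) ↦ x⁻¹ y`.
-/

open CategoryTheory CategoryTheory.Limits AlgebraicGeometry NeronModelInfra GoodReductionJacobian

namespace Fermat.Agent.RelJac

universe u

variable {R : Type u} [CommRing R] {P : Scheme.{u}} {f : P ⟶ Spec (CommRingCat.of R)}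
  (G : RelativeGroupLaw R f)

theorem groupLaw_inv_natural {T T' : Scheme.{u}} (t : T ⟶ Spec (CommRingCat.of R))
    (t' : T' ⟶ Spec (CommRingCat.of R)) (ψ : T' ⟶ T) (hψ : ψ ≫ t = t') (x : SchemeHomOver t f) :
    schemeHomOverComp ψ hψ (G.inv t x) = G.inv t' (schemeHomOverComp ψ hψ x) := by
  let := G.pointGroup t'
  have h : G.mul t' (schemeHomOverComp ψ hψ (G.inv t x)) (schemeHomOverComp ψ hψ x) = G.one t' := by
    rw [← G.mul_natural t t' ψ hψ, G.inv_mul_cancel, G.one_natural]
  exact eq_inv_of_mul_eq_one_left h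

theorem groupLaw_inv_mul_eq_one_iff {T : Scheme.{u}} (t : T ⟶ Spec (CommRingCat.of R))
    (x y : SchemeHomOver t f) : G.mul t (G.inv t x) y = G.one t ↔ x = y := by
  let := G.pointGroup t
  exact inv_mul_eq_one (G := SchemeHomOver t f)

end Fermat.Agent.RelJac

namespace Fermat.Agent.RelJac

universe u

/-- A group scheme locally of finite type over a field is separated. -/
theorem isSeparated_of_relativeGroupLaw {k : Type u} [Field k] {P : Scheme.{u}}
    {f : P ⟶ Spec (CommRingCat.of k)} [LocallyOfFiniteType f] (G : RelativeGroupLaw k f) :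
    IsSeparated f := by
  have : Subsingleton (Spec (CommRingCat.of k)) := inferInstanceAs (Subsingleton (PrimeSpectrum k))
  let e : Spec (CommRingCat.of k) ⟶ P := (G.one (𝟙 _)).1
  have he : IsClosedImmersion e := isClosedImmersion_of_comp_eq_id f e (G.one (𝟙 _)).2
  let t : pullback f f ⟶ Spec (CommRingCat.of k) := pullback.fst f f ≫ f
  let a : SchemeHomOver t f := ⟨pullback.fst f f, rfl⟩
  let b : SchemeHomOver t f := ⟨pullback.snd f f, pullback.condition.symm⟩
  let d : SchemeHomOver t f := G.mul t (G.inv t a) b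
  have hd : ∀ {T : Scheme.{u}} (ψ : T ⟶ pullback f f),
      ψ ≫ d.1 = (G.mul (ψ ≫ t) (G.inv (ψ ≫ t) (schemeHomOverComp ψ rfl a))
        (schemeHomOverComp ψ rfl b)).1 := fun {T} ψ => by
    rw [← groupLaw_inv_natural G t (ψ ≫ t) ψ rfl a, ← G.mul_natural t (ψ ≫ t) ψ rfl]
    rfl
  have hone : ∀ {T : Scheme.{u}} (s : T ⟶ Spec (CommRingCat.of k)), (G.one s).1 = s ≫ e :=
    fun {T} s => by rw [← G.one_natural (𝟙 _) s s (Category.comp_id s)]; rfl
  have hw : pullback.diagonal f ≫ d.1 = f ≫ e := by
    have ht : pullback.diagonal f ≫ t = f := by simp [t]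
    have hab : schemeHomOverComp (pullback.diagonal f) rfl a =
        schemeHomOverComp (pullback.diagonal f) rfl b := Subtype.ext (by simp [a, b])
    rw [hd, (groupLaw_inv_mul_eq_one_iff G _ _ _).2 hab, hone, ht]
  have hsq : IsPullback (pullback.diagonal f) f d.1 e := by
    refine IsPullback.of_isLimit (c := PullbackCone.mk _ _ hw) (PullbackCone.IsLimit.mk hw
      (fun c => c.fst ≫ pullback.fst f f) (fun c => ?_) (fun c => ?_) (fun c m hm₁ _ => ?_))
    all_goals have hc : c.fst ≫ d.1 = c.snd ≫ e := c.condition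
    · have hsnd : c.snd = c.fst ≫ t := by
        have h := congrArg (· ≫ f) hc
        simp only [Category.assoc, d.2, e, (G.one (𝟙 _)).2, Category.comp_id] at h
        exact h.symm
      rw [hd, hsnd, ← hone] at hc
      have hxy := (groupLaw_inv_mul_eq_one_iff G _ _ _).1 (Subtype.ext hc)
      have hxy' : c.fst ≫ pullback.fst f f = c.fst ≫ pullback.snd f f := congrArg Subtype.val hxy
      apply pullback.hom_ext <;> simp [hxy']
    · have h := congrArg (· ≫ f) hc
      simp only [Category.assoc, d.2, e, (G.one (𝟙 _)).2, Category.comp_id] at h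
      simpa [t] using h
    · rw [← hm₁]; simp
  exact ⟨MorphismProperty.of_isPullback (P := @IsClosedImmersion) hsq.flip he⟩

end Fermat.Agent.RelJac
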