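import Mathlib.AlgebraicGeometry.Morphisms.Smooth
import Mathlib.RingTheory.FinitePresentation
import Mathlib.RingTheory.Spectrum.Prime.Topology
import Fermat.Prelude.Def_AlgebraicGeometry_NeronModelPropertyBundleCarrier
import Fermat.Agent.RelJac.CurveModel.Stalks

/-!
The infinitesimal lifting criterion of smoothness over a field.
-/

open CategoryTheory AlgebraicGeometry NeronModelInfra

namespace Fermat.Agent.RelJac

universe u

variable {k : Type u} [Field k] {P : Scheme.{u}} (f : P ⟶ Spec (CommRingCat.of k))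

/-- Points with values in a ring along a nilpotent thickening lift, hence the map is smooth. -/
theorem smooth_of_lifting [LocallyOfFiniteType f]
    (H : ∀ (R : Type u) [CommRing R] [Algebra k R] (I : Ideal R), I ^ 2 = ⊥ →
      ∀ x : SchemeHomOver (Spec.map (CommRingCat.ofHom (algebraMap k (R ⧸ I)))) f,
      ∃ y : SchemeHomOver (Spec.map (CommRingCat.ofHom (algebraMap k R))) f,
        Spec.map (CommRingCat.ofHom (Ideal.Quotient.mk I)) ≫ y.1 = x.1) :
    Smooth f := by
  rw [HasRingHomProperty.iff_exists_appLE (P := @Smooth)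
    (RingHom.Smooth.stableUnderComposition.stableUnderCompositionWithLocalizationAway
      RingHom.Smooth.holdsForLocalizationAway).1]
  intro p
  obtain ⟨_, ⟨V, hV, rfl⟩, hpV, -⟩ :=
    P.isBasis_affineOpens.exists_subset_of_mem_open (Set.mem_univ p) isOpen_univ
  refine ⟨⟨⊤, isAffineOpen_top _⟩, ⟨V, hV⟩, hpV, le_top, ?_⟩
  have hfs : hV.fromSpec ≫ f = Spec.map (CommRingCat.ofHom (Curve.gammaHom f V)) := by
    rw [← IsAffineOpen.SpecMap_appLE_fromSpec f (isAffineOpen_top _) hV le_top,
      IsAffineOpen.fromSpec_top, Scheme.isoSpec_Spec_inv, ← Spec.map_comp]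
    rfl
  let : Algebra k Γ(P, V) := (Curve.gammaHom f V).toAlgebra
  have hft : Algebra.FiniteType k Γ(P, V) := by
    have h := HasRingHomProperty.appLE (P := @LocallyOfFiniteType) f inferInstance
      ⟨⊤, isAffineOpen_top _⟩ ⟨V, hV⟩ (le_top : V ≤ _)
    exact RingHom.finiteType_respectsIso.right _
      (Scheme.ΓSpecIso (CommRingCat.of k)).symm.commRingCatIsoToRingEquiv h
  have hfs' : Algebra.FormallySmooth k Γ(P, V) := by
    refine Algebra.FormallySmooth.of_comp_surjective fun B _ _ I hI g => ?_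
    let x : Spec (CommRingCat.of (B ⧸ I)) ⟶ P :=
      Spec.map (CommRingCat.ofHom g.toRingHom) ≫ hV.fromSpec
    have hx : x ≫ f = Spec.map (CommRingCat.ofHom (algebraMap k (B ⧸ I))) := by
      simp only [x, Category.assoc]
      rw [hfs, ← Spec.map_comp]
      congr 1
      ext r
      exact g.commutes r
    obtain ⟨⟨y, hy⟩, hyx⟩ := H B I hI ⟨x, hx⟩
    have hrange : Set.range y ⊆ Set.range hV.fromSpec := by
      rintro _ ⟨q, rfl⟩
      have hle : I ≤ q.asIdeal := fun a ha => q.isPrime.mem_of_pow_mem 2 (by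
        have : a ^ 2 ∈ I ^ 2 := Ideal.pow_mem_pow ha 2
        rw [hI, Ideal.mem_bot] at this
        rw [this]; exact q.asIdeal.zero_mem)
      obtain ⟨q', rfl⟩ : ∃ q' : Spec (CommRingCat.of (B ⧸ I)),
          Spec.map (CommRingCat.ofHom (Ideal.Quotient.mk I)) q' = q := by
        have h : q ∈ Set.range (PrimeSpectrum.comap (Ideal.Quotient.mk I)) := by
          rw [_root_.range_comap_of_surjective _ _ Ideal.Quotient.mk_surjective, Ideal.mk_ker]
          exact hle
        exact h
      rw [← Scheme.Hom.comp_apply, hyx]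
      exact ⟨Spec.map (CommRingCat.ofHom g.toRingHom) q', rfl⟩
    obtain ⟨ψ, hψ⟩ : ∃ ψ : Γ(P, V) ⟶ CommRingCat.of B, Spec.map ψ ≫ hV.fromSpec = y :=
      ⟨Spec.preimage (IsOpenImmersion.lift hV.fromSpec y hrange), by
        rw [Spec.map_preimage]; exact IsOpenImmersion.lift_fac _ _ _⟩
    have hψk : CommRingCat.ofHom (Curve.gammaHom f V) ≫ ψ = CommRingCat.ofHom (algebraMap k B) :=
      Spec.map_injective (by rw [Spec.map_comp, ← hfs, ← Category.assoc, hψ, hy])
    have hc : ∀ r : k, ψ.hom (algebraMap k Γ(P, V) r) = algebraMap k B r := fun r =>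
      congrArg (fun φ : CommRingCat.of k ⟶ CommRingCat.of B => φ.hom r) hψk
    refine ⟨{ ψ.hom with commutes' := hc }, ?_⟩
    have hcomp : ψ ≫ CommRingCat.ofHom (Ideal.Quotient.mk I) = CommRingCat.ofHom g.toRingHom :=
      Spec.map_injective ((cancel_mono hV.fromSpec).1 (by
        rw [Spec.map_comp, Category.assoc, hψ, hyx]))
    exact AlgHom.ext fun a =>
      congrArg (fun φ : Γ(P, V) ⟶ CommRingCat.of (B ⧸ I) => φ.hom a) hcomp
  have hfp : Algebra.FinitePresentation k Γ(P, V) := Algebra.FinitePresentation.of_finiteType.1 hft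
  have hsm : (Curve.gammaHom f V).Smooth := ⟨hfs', hfp⟩
  have he : f.appLE ⊤ V le_top =
      (Scheme.ΓSpecIso (CommRingCat.of k)).hom ≫ CommRingCat.ofHom (Curve.gammaHom f V) := by
    simp [Curve.gammaHom]
  rw [he]
  exact RingHom.Smooth.propertyIsLocal.respectsIso.right _
    (Scheme.ΓSpecIso (CommRingCat.of k)).commRingCatIsoToRingEquiv hsm

end Fermat.Agent.RelJac
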